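import Mathlib.Algebra.Order.BigOperators.Group.Finset
import Mathlib.Tactic.Ring

/-!
# Subset sums of a sequence that never more than doubles

If `a` is positive, unbounded and `a (i + 1) ≤ 2 * a i`, its subset sums have gaps at most `a 0`.
-/

set_option autoImplicit false

namespace FA.DistinctSummands

open Finset

theorem exists_subset_sum_near {a : ℕ → ℕ} (hpos : ∀ i, 0 < a i)
    (hdouble : ∀ i, a (i + 1) ≤ 2 * a i) (hunb : ∀ m, ∃ i, m < a i) (m : ℕ) :
    ∃ s : Finset ℕ, ∑ i ∈ s, a i ≤ m ∧ m < ∑ i ∈ s, a i + a 0 := by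
  induction m using Nat.strong_induction_on with
  | _ m ih =>
    have hfind := Nat.find_spec (hunb m)
    rcases Nat.eq_zero_or_pos (Nat.find (hunb m)) with h | h
    · refine ⟨∅, by simp, ?_⟩
      rw [h] at hfind
      simpa using hfind
    obtain ⟨i, hi⟩ := Nat.exists_eq_succ_of_ne_zero h.ne'
    rw [hi] at hfind
    have h1 : a i ≤ m := not_lt.1 (Nat.find_min (hunb m) (by omega))
    have h2 := hpos i
    have h3 := hdouble i
    obtain ⟨s, hs1, hs2⟩ := ih (m - a i) (by omega)
    have his : i ∉ s := fun hmem => by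
      have h4 := single_le_sum (f := a) (fun y _ => Nat.zero_le (a y)) hmem
      simp only [Nat.succ_eq_add_one] at hfind
      omega
    exact ⟨insert i s, by rw [sum_insert his]; omega, by rw [sum_insert his]; omega⟩

end FA.DistinctSummands
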