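import Mathlib.Algebra.Polynomial.Taylor
import Mathlib.Algebra.Polynomial.Inductions
import Mathlib.Tactic.Ring
import Mathlib.Tactic.Linarith

/-!
# A constant signed sum of consecutive values of a polynomial

For `f : ℤ[X]` of degree `d` and positive leading coefficient some disjoint `U, V ⊆ [0, 2 ^ d)` and
`c > 0` give `∑ f (x + u) - ∑ f (x + v) = c` identically (Prouhet), so for finite sets of distinct
arguments the sums of `f` contain long progressions of difference `c`.
-/

set_option autoImplicit false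

noncomputable section

namespace FA.DistinctSummands

open Finset Polynomial

/-- The leading term of a difference of translates. -/
theorem translate_sub {f : ℤ[X]} {d : ℕ} (hdeg : f.natDegree = d + 1) (hlc : 0 < f.leadingCoeff)
    {h : ℤ} (hh : 0 < h) :
    (taylor h f - f).natDegree = d ∧ 0 < (taylor h f - f).leadingCoeff := by
  have hcoeff : (taylor h f - f).coeff d = h * ((d + 1 : ℕ) : ℤ) * f.leadingCoeff := by
    have hf : f.leadingCoeff = f.coeff (d + 1) := by rw [leadingCoeff, hdeg]
    have hnd : (hasseDeriv d f).natDegree < 2 := by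
      have := natDegree_hasseDeriv_le f d
      omega
    rw [coeff_sub, taylor_coeff, eval_eq_sum_range' hnd]
    simp only [Finset.sum_range_succ, Finset.sum_range_zero, hasseDeriv_coeff, zero_add, pow_zero,
      pow_one, mul_one, Nat.choose_self, Nat.cast_one, one_mul, Nat.add_comm 1 d,
      Nat.choose_succ_self_right]
    rw [hf]
    ring
  have hpos : 0 < (taylor h f - f).coeff d := by
    rw [hcoeff]
    exact mul_pos (mul_pos hh (Int.natCast_pos.2 (Nat.succ_pos d))) hlc
  have hle : (taylor h f - f).natDegree ≤ d := by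
    rw [natDegree_le_iff_coeff_eq_zero]
    intro N hN
    rw [coeff_sub]
    rcases Nat.eq_or_lt_of_le hN with hN' | hN'
    · rw [← hN', Nat.succ_eq_add_one, ← hdeg]
      have : (taylor h f).coeff f.natDegree = f.leadingCoeff := by
        have := leadingCoeff_taylor (r := h) (f := f)
        rwa [leadingCoeff, natDegree_taylor] at this
      rw [this, leadingCoeff, sub_self]
    · rw [coeff_eq_zero_of_natDegree_lt (by rw [natDegree_taylor]; omega),
        coeff_eq_zero_of_natDegree_lt (by omega), sub_zero]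
  have hnd := natDegree_eq_of_le_of_coeff_ne_zero hle hpos.ne'
  exact ⟨hnd, by rwa [leadingCoeff, hnd]⟩

theorem exists_constant_difference (d : ℕ) : ∀ f : ℤ[X], f.natDegree = d → 0 < f.leadingCoeff →
    ∃ (U V : Finset ℕ) (c : ℕ), U ⊆ range (2 ^ d) ∧ V ⊆ range (2 ^ d) ∧ 0 < c ∧
      ∀ x : ℤ, ∑ u ∈ U, f.eval (x + u) - ∑ v ∈ V, f.eval (x + v) = c := by
  induction d with
  | zero =>
    intro f hdeg hlc
    refine ⟨{0}, ∅, f.leadingCoeff.toNat, by simp, by simp, by omega, fun x => ?_⟩
    rw [eq_C_of_natDegree_eq_zero hdeg] at hlc ⊢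
    simp only [leadingCoeff_C] at hlc ⊢
    simp [Int.toNat_of_nonneg hlc.le]
  | succ d ih =>
    intro f hdeg hlc
    obtain ⟨hg, hglc⟩ := translate_sub hdeg hlc (h := ((2 ^ d : ℕ) : ℤ)) (by positivity)
    obtain ⟨U, V, c, hU, hV, hc, hUV⟩ := ih _ hg hglc
    have hsh : Function.Injective fun u : ℕ => 2 ^ d + u := fun a b h => Nat.add_left_cancel h
    have hlt : ∀ {W : Finset ℕ}, W ⊆ range (2 ^ d) → ∀ {W' : Finset ℕ},
        Disjoint W (W'.image fun u => 2 ^ d + u) := fun hW _ => disjoint_left.2 fun x hx hx' => by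
      obtain ⟨y, -, rfl⟩ := mem_image.1 hx'
      have := mem_range.1 (hW hx)
      omega
    refine ⟨V ∪ U.image (fun u => 2 ^ d + u), U ∪ V.image (fun u => 2 ^ d + u), c, ?_, ?_, hc,
      fun x => ?_⟩
    · intro y hy
      rw [mem_range, pow_succ']
      rcases mem_union.1 hy with h | h
      · have := mem_range.1 (hV h); omega
      · obtain ⟨z, hz, rfl⟩ := mem_image.1 h
        have := mem_range.1 (hU hz); omega
    · intro y hy
      rw [mem_range, pow_succ']
      rcases mem_union.1 hy with h | h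
      · have := mem_range.1 (hU h); omega
      · obtain ⟨z, hz, rfl⟩ := mem_image.1 h
        have := mem_range.1 (hV hz); omega
    · rw [sum_union (hlt hV), sum_union (hlt hU), sum_image hsh.injOn, sum_image hsh.injOn]
      have hg' : ∀ y : ℤ, (taylor ((2 ^ d : ℕ) : ℤ) f - f).eval y =
          f.eval (y + ((2 ^ d : ℕ) : ℤ)) - f.eval y := fun y => by
        rw [eval_sub, taylor_eval]
      have h1 := hUV x
      simp only [hg', sum_sub_distrib] at h1
      have h2 : ∀ W : Finset ℕ, ∑ u ∈ W, f.eval (x + ((2 ^ d + u : ℕ) : ℤ)) =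
          ∑ u ∈ W, f.eval (x + u + ((2 ^ d : ℕ) : ℤ)) := fun W => sum_congr rfl fun u _ => by
        congr 1; push_cast; ring
      rw [h2 U, h2 V]
      linarith

/-- A polynomial of degree at least one and positive leading coefficient grows at least linearly. -/
theorem exists_le_eval {f : ℤ[X]} (hdeg : 1 ≤ f.natDegree) (hlc : 0 < f.leadingCoeff) :
    ∀ b : ℤ, ∃ X : ℕ, ∀ x : ℕ, X ≤ x → b ≤ f.eval (x : ℤ) := by
  suffices h : ∃ X : ℕ, ∀ x : ℕ, X ≤ x → (x : ℤ) + f.coeff 0 ≤ f.eval (x : ℤ) by
    intro b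
    obtain ⟨X, hX⟩ := h
    exact ⟨X + (b - f.coeff 0).toNat, fun x hx => by
      have := hX x (by omega)
      omega⟩
  suffices h : ∀ d, ∀ g : ℤ[X], g.natDegree = d → 0 < g.leadingCoeff →
      ∃ X : ℕ, ∀ x : ℕ, X ≤ x → 1 ≤ g.eval (x : ℤ) by
    have hdiv : f.divX.natDegree = f.natDegree - 1 := natDegree_divX_eq_natDegree_tsub_one
    have hlc' : f.divX.leadingCoeff = f.leadingCoeff := by
      rw [leadingCoeff, hdiv, coeff_divX, Nat.sub_add_cancel hdeg, leadingCoeff]
    obtain ⟨X, hX⟩ := h _ f.divX rfl (hlc' ▸ hlc)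
    refine ⟨X, fun x hx => ?_⟩
    conv_rhs => rw [← X_mul_divX_add f]
    rw [eval_add, eval_mul, eval_X, eval_C]
    have := mul_le_mul_of_nonneg_left (hX x hx) (Int.natCast_nonneg x)
    linarith
  intro d
  induction d with
  | zero =>
    intro g hg hglc
    rw [eq_C_of_natDegree_eq_zero hg] at hglc ⊢
    simp only [leadingCoeff_C] at hglc
    exact ⟨0, fun x _ => by rw [eval_C]; omega⟩
  | succ d ih =>
    intro g hg hglc
    have hdiv : g.divX.natDegree = d := by
      rw [natDegree_divX_eq_natDegree_tsub_one, hg, Nat.add_sub_cancel]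
    have hlc' : g.divX.leadingCoeff = g.leadingCoeff := by
      rw [leadingCoeff, hdiv, coeff_divX, leadingCoeff, hg]
    obtain ⟨X, hX⟩ := ih _ hdiv (hlc' ▸ hglc)
    refine ⟨X + (1 - g.coeff 0).toNat, fun x hx => ?_⟩
    rw [← X_mul_divX_add g, eval_add, eval_mul, eval_X, eval_C]
    have := mul_le_mul_of_nonneg_left (hX x (by omega)) (Int.natCast_nonneg x)
    omega

end FA.DistinctSummands
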