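import Fermat.Agent.DistinctSummands.Gaps
import Fermat.Agent.DistinctSummands.Prouhet
import Mathlib.Data.ZMod.Basic
import Mathlib.Data.Nat.Prime.Basic
import Mathlib.GroupTheory.Archimedean
import Mathlib.Algebra.Polynomial.Div
import Mathlib.Algebra.Order.Archimedean.Basic
import Mathlib.RingTheory.Int.Basic

/-!
# Graham's theorem: sums of polynomial values at distinct arguments

For `f : ℤ[X]` with positive leading coefficient and values of greatest common divisor one, blocks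
of `2 ^ d` arguments realise a long progression of difference `c`, finitely many arguments every
residue modulo `c`, and one argument between consecutive blocks a set of bounded gaps.
-/

set_option autoImplicit false

noncomputable section

namespace FA.DistinctSummands

open Finset Polynomial

/-- Residues modulo `c` of sums of values at distinct arguments beyond any bound. -/
def farResidues (f : ℤ[X]) (c : ℕ) : AddSubmonoid (ZMod c) where
  carrier := {r | ∀ M : ℕ, ∃ s : Finset ℕ, (∀ x ∈ s, M ≤ x) ∧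
    ((∑ x ∈ s, f.eval (x : ℤ) : ℤ) : ZMod c) = r}
  zero_mem' := fun M => ⟨∅, by simp, by simp⟩
  add_mem' := by
    intro a b ha hb M
    obtain ⟨s, hs, hsa⟩ := ha M
    obtain ⟨t, ht, htb⟩ := hb (M + s.sup id + 1)
    have hd : Disjoint s t := disjoint_left.2 fun x hx hx' => by
      have h1 : x ≤ s.sup id := Finset.le_sup (f := id) hx
      have := ht x hx'
      omega
    refine ⟨s ∪ t, fun x hx => ?_, by rw [sum_union hd, Int.cast_add, hsa, htb]⟩
    rcases mem_union.1 hx with h | h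
    · exact hs x h
    · exact le_trans (by omega) (ht x h)

theorem eval_mem_farResidues (f : ℤ[X]) (c : ℕ) [NeZero c] (z : ℤ) :
    ((f.eval z : ℤ) : ZMod c) ∈ farResidues f c := fun M => by
  obtain ⟨t, ht⟩ : ∃ t : ℕ, t = z.natAbs + M := ⟨_, rfl⟩
  have hc : 0 < c := Nat.pos_of_ne_zero (NeZero.ne c)
  have h1 : (t : ℤ) ≤ ((c * t : ℕ) : ℤ) := Int.ofNat_le.2 (Nat.le_mul_of_pos_left t hc)
  obtain ⟨y, hy⟩ : ∃ y : ℕ, (y : ℤ) = z + ((c * t : ℕ) : ℤ) :=
    ⟨(z + ((c * t : ℕ) : ℤ)).toNat, Int.toNat_of_nonneg (by omega)⟩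
  refine ⟨{y}, fun x hx => ?_, ?_⟩
  · obtain rfl := mem_singleton.1 hx
    omega
  · rw [sum_singleton, hy, ZMod.intCast_eq_intCast_iff_dvd_sub]
    refine dvd_trans ⟨-(t : ℤ), ?_⟩ (sub_dvd_eval_sub z (z + ((c * t : ℕ) : ℤ)) f)
    push_cast
    ring

theorem farResidues_eq_top {f : ℤ[X]} (hprim : ∀ p : ℕ, p.Prime → ∃ x : ℤ, ¬(p : ℤ) ∣ f.eval x)
    (c : ℕ) [NeZero c] (r : ZMod c) : r ∈ farResidues f c := by
  have hneg : ∀ a ∈ farResidues f c, -a ∈ farResidues f c := fun a ha => by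
    have h : -a = (c - 1) • a := by
      rw [nsmul_eq_mul, Nat.cast_sub (Nat.one_le_iff_ne_zero.2 (NeZero.ne c)), ZMod.natCast_self]
      simp
    rw [h]
    exact nsmul_mem ha _
  let G : AddSubgroup (ZMod c) := { farResidues f c with neg_mem' := fun {a} ha => hneg a ha }
  obtain ⟨H, hH⟩ : ∃ H : AddSubgroup ℤ, H = G.comap (Int.castAddHom (ZMod c)) := ⟨_, rfl⟩
  obtain ⟨g, hg⟩ := Int.subgroup_cyclic H
  have hmem : ∀ z : ℤ, z ∈ H ↔ g ∣ z := fun z => by
    rw [hg, ← AddSubgroup.zmultiples_eq_closure, Int.mem_zmultiples_iff]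
  have hone : g.natAbs = 1 := by
    by_contra hne
    obtain ⟨p, hp, hpg⟩ := Nat.exists_prime_and_dvd hne
    obtain ⟨x, hx⟩ := hprim p hp
    refine hx ((Int.natCast_dvd.2 hpg).trans ((hmem _).1 ?_))
    rw [hH, AddSubgroup.mem_comap]
    exact eval_mem_farResidues f c x
  have h1 : (r.val : ℤ) ∈ H := (hmem _).2 (Int.natAbs_dvd.1 (hone ▸ by simp))
  rw [hH, AddSubgroup.mem_comap] at h1
  have h2 : ((r.val : ℤ) : ZMod c) ∈ farResidues f c := h1
  rwa [Int.cast_natCast, ZMod.natCast_zmod_val] at h2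

/-- **Graham (1964)**: every large integer is a sum of `f x` over distinct arguments `x ≥ M`. -/
theorem exists_distinct_sum {f : ℤ[X]} (hdeg : 1 ≤ f.natDegree) (hlc : 0 < f.leadingCoeff)
    (hprim : ∀ p : ℕ, p.Prime → ∃ x : ℤ, ¬(p : ℤ) ∣ f.eval x) (M : ℕ) :
    ∃ N : ℕ, ∀ n, N ≤ n → ∃ s : Finset ℕ, (∀ x ∈ s, M ≤ x) ∧
      ∑ x ∈ s, f.eval (x : ℤ) = n := by
  classical
  obtain ⟨U, V, c, hU, hV, hc, hUV⟩ := exists_constant_difference _ f rfl hlc
  have : NeZero c := ⟨hc.ne'⟩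
  obtain ⟨L, hL⟩ : ∃ L, L = 2 ^ f.natDegree := ⟨_, rfl⟩
  rw [← hL] at hU hV
  have hL0 : 0 < L := hL ▸ pow_pos (by norm_num) _
  obtain ⟨P, hP⟩ : ∃ P, P = L + 1 := ⟨_, rfl⟩
  obtain ⟨g, hgdef⟩ : ∃ g : ℤ[X], g = 2 • f - taylor (P : ℤ) f := ⟨_, rfl⟩
  obtain ⟨X₁, hX₁⟩ := exists_le_eval hdeg hlc 1
  obtain ⟨X₂, hX₂⟩ : ∃ X : ℕ, ∀ x : ℕ, X ≤ x → 0 ≤ g.eval (x : ℤ) := by
    have htop : g.coeff f.natDegree = f.leadingCoeff := by
      have h : (taylor (P : ℤ) f).coeff f.natDegree = f.leadingCoeff := by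
        have := leadingCoeff_taylor (r := (P : ℤ)) (f := f)
        rwa [leadingCoeff, natDegree_taylor] at this
      rw [hgdef, coeff_sub, two_nsmul, coeff_add, h, leadingCoeff]
      ring
    have hgle : g.natDegree ≤ f.natDegree := by
      rw [hgdef, two_nsmul]
      exact (natDegree_sub_le _ _).trans (max_le
        ((natDegree_add_le _ _).trans (max_le le_rfl le_rfl)) (natDegree_taylor f _).le)
    have hgnd := natDegree_eq_of_le_of_coeff_ne_zero hgle (by rw [htop]; exact hlc.ne')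
    have hglc : 0 < g.leadingCoeff := by rw [leadingCoeff, hgnd, htop]; exact hlc
    exact exists_le_eval (hgnd ▸ hdeg) hglc 0
  choose R hRmem hR using fun r : ZMod c => farResidues_eq_top hprim c r (M + X₁)
  obtain ⟨T, hT⟩ : ∃ T, T = M + X₁ + X₂ + (Finset.univ.sup fun r => (R r).sup id) + 1 :=
    ⟨_, rfl⟩
  have hRlt : ∀ r, ∀ x ∈ R r, x < T := fun r x hx => by
    have h1 : x ≤ (R r).sup id := Finset.le_sup (f := id) hx
    have h2 := Finset.le_sup (f := fun r => (R r).sup id) (Finset.mem_univ r)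
    omega
  -- values as natural numbers
  obtain ⟨F, hF⟩ : ∃ F : ℕ → ℕ, ∀ x, F x = (f.eval (x : ℤ)).toNat := ⟨_, fun _ => rfl⟩
  have hFc : ∀ x, M + X₁ ≤ x → (F x : ℤ) = f.eval (x : ℤ) := fun x hx => by
    rw [hF]; exact Int.toNat_of_nonneg (by have := hX₁ x (by omega); omega)
  have hsumc : ∀ s : Finset ℕ, (∀ x ∈ s, M + X₁ ≤ x) →
      ((∑ x ∈ s, F x : ℕ) : ℤ) = ∑ x ∈ s, f.eval (x : ℤ) := fun s hs => by
    rw [Nat.cast_sum]; exact sum_congr rfl fun x hx => hFc x (hs x hx)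
  obtain ⟨a, ha⟩ : ∃ a : ℕ → ℕ, ∀ i, a i = F (T + L + P * i) := ⟨_, fun _ => rfl⟩
  have hac : ∀ i, (a i : ℤ) = f.eval ((T + L + P * i : ℕ) : ℤ) := fun i =>
    ha i ▸ hFc _ (by omega)
  have hapos : ∀ i, 0 < a i := fun i => by
    have := hX₁ (T + L + P * i) (by omega)
    have := hac i
    omega
  have hadouble : ∀ i, a (i + 1) ≤ 2 * a i := fun i => by
    have h1 := hX₂ (T + L + P * i) (by omega)
    rw [hgdef, two_nsmul, eval_sub, eval_add, taylor_eval, ← Nat.cast_add, ← hac] at h1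
    have h2 := hac (i + 1)
    rw [show T + L + P * (i + 1) = T + L + P * i + P by ring] at h2
    omega
  have haunb : ∀ m, ∃ i, m < a i := fun m => by
    obtain ⟨X, hX⟩ := exists_le_eval hdeg hlc ((m : ℤ) + 1)
    have h0 : X ≤ T + L + P * X := by
      have := Nat.le_mul_of_pos_left X (by omega : 0 < P)
      omega
    exact ⟨X, by have := hX _ h0; have := hac X; omega⟩
  obtain ⟨S, hS⟩ : ∃ S, S = ∑ r, ∑ x ∈ R r, F x := ⟨_, rfl⟩
  have hRS : ∀ r, ∑ x ∈ R r, F x ≤ S := fun r => hS ▸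
    single_le_sum (f := fun r => ∑ x ∈ R r, F x) (fun _ _ => Nat.zero_le _) (Finset.mem_univ r)
  obtain ⟨N, hN⟩ : ∃ N, N = a 0 + S := ⟨_, rfl⟩
  obtain ⟨blk, hblk⟩ : ∃ blk : ℕ → Finset ℕ → Finset ℕ,
      ∀ i W, blk i W = W.image fun u => T + P * i + u := ⟨_, fun _ _ => rfl⟩
  have hblkmem : ∀ {i x : ℕ} {W : Finset ℕ}, W ⊆ range L → x ∈ blk i W →
      T + P * i ≤ x ∧ x < T + P * i + L := fun hW hx => by
    rw [hblk, mem_image] at hx
    obtain ⟨u, hu, rfl⟩ := hx
    have := mem_range.1 (hW hu)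
    omega
  have hsep : ∀ {i j x : ℕ}, T + P * i ≤ x → x < T + P * i + P → T + P * j ≤ x →
      x < T + P * j + P → i = j := fun {i j x} h1 h2 h3 h4 => by
    rcases lt_trichotomy i j with h | h | h
    · have : P * (i + 1) ≤ P * j := Nat.mul_le_mul_left P h
      rw [Nat.mul_succ] at this
      omega
    · exact h
    · have : P * (j + 1) ≤ P * i := Nat.mul_le_mul_left P h
      rw [Nat.mul_succ] at this
      omega
  obtain ⟨C, hC⟩ : ∃ C, C = ∑ i ∈ range N, ∑ x ∈ blk i V, F x := ⟨_, rfl⟩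
  have hres : ∀ k ≤ N, ∃ s : Finset ℕ, (∀ x ∈ s, T ≤ x ∧ ∃ i, T + P * i ≤ x ∧ x < T + P * i + L) ∧
      ∑ x ∈ s, F x = C + k * c := fun k hk => by
    have hW : ∀ i, (if i < k then U else V) ⊆ range L := fun i => by split_ifs <;> assumption
    refine ⟨(range N).biUnion fun i => blk i (if i < k then U else V), fun x hx => ?_, ?_⟩
    · obtain ⟨i, -, hx⟩ := mem_biUnion.1 hx
      have := hblkmem (hW i) hx
      exact ⟨by omega, i, this⟩
    · rw [sum_biUnion fun i _ j _ hij => disjoint_left.2 fun x hx hx' => hij (by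
        have h1 := hblkmem (hW i) hx
        have h2 := hblkmem (hW j) hx'
        exact hsep h1.1 (by omega) h2.1 (by omega))]
      have hstep : ∀ i, ∑ x ∈ blk i (if i < k then U else V), F x =
          ∑ x ∈ blk i V, F x + if i < k then c else 0 := fun i => by
        split_ifs
        · have h := hUV ((T + P * i : ℕ) : ℤ)
          have hconv : ∀ W : Finset ℕ, ((∑ x ∈ blk i W, F x : ℕ) : ℤ) =
              ∑ u ∈ W, f.eval (((T + P * i : ℕ) : ℤ) + u) := fun W => by
            rw [hblk, sum_image (fun u _ v _ huv => Nat.add_left_cancel huv), Nat.cast_sum]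
            exact sum_congr rfl fun u _ => by rw [hFc _ (by omega), Nat.cast_add]
          rw [← hconv, ← hconv] at h
          omega
        · simp
      have hfilter : (range N).filter (fun i => i < k) = range k := by
        ext i; simp only [mem_filter, mem_range]; omega
      rw [sum_congr rfl fun i _ => hstep i, sum_add_distrib, ← hC, ← sum_filter, hfilter]
      simp
  refine ⟨C + S, fun n hn => ?_⟩
  obtain ⟨t, ht1, ht2⟩ := exists_subset_sum_near hapos hadouble haunb (n - C - S)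
  obtain ⟨r, hr⟩ : ∃ r : ZMod c, r = ((n : ℕ) : ZMod c) - (C : ZMod c) -
      ((∑ i ∈ t, a i : ℕ) : ZMod c) := ⟨_, rfl⟩
  have hRle := hRS r
  obtain ⟨k, hk⟩ : c ∣ n - C - ∑ i ∈ t, a i - ∑ x ∈ R r, F x := by
    rw [← ZMod.natCast_eq_zero_iff, Nat.cast_sub (by omega), Nat.cast_sub (by omega),
      Nat.cast_sub (by omega), ← hr, sub_eq_zero]
    have h := hR r
    rw [← hsumc (R r) (hRmem r), Int.cast_natCast] at h
    exact h.symm
  have hkN : k ≤ N := by
    have h1 : k ≤ c * k := Nat.le_mul_of_pos_left k hc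
    omega
  obtain ⟨s, hs, hsum⟩ := hres k hkN
  obtain ⟨w, hw⟩ : ∃ w, w = t.image fun i => T + L + P * i := ⟨_, rfl⟩
  have hwsum : ∑ x ∈ w, F x = ∑ i ∈ t, a i := by
    rw [hw, sum_image fun i _ j _ hij => Nat.eq_of_mul_eq_mul_left (by omega : 0 < P)
      (Nat.add_left_cancel hij)]
    exact sum_congr rfl fun i _ => (ha i).symm
  have hd1 : Disjoint (R r) s := disjoint_left.2 fun x hx hx' => by
    have := hRlt r x hx
    have := (hs x hx').1
    omega
  have hd2 : Disjoint (R r ∪ s) w := disjoint_left.2 fun x hx hx' => by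
    rw [hw, mem_image] at hx'
    obtain ⟨j, -, rfl⟩ := hx'
    rcases mem_union.1 hx with hx | hx
    · have := hRlt r _ hx
      omega
    · obtain ⟨-, i, h1, h2⟩ := hs _ hx
      have := hsep h1 (by omega) (by omega) (by omega : T + L + P * j < T + P * j + P)
      subst this
      omega
  have hall : ∀ x ∈ R r ∪ s ∪ w, M + X₁ ≤ x := fun x hx => by
    rcases mem_union.1 hx with hx | hx
    · rcases mem_union.1 hx with hx | hx
      · exact hRmem r x hx
      · have := (hs x hx).1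
        omega
    · rw [hw, mem_image] at hx
      obtain ⟨j, -, rfl⟩ := hx
      omega
  refine ⟨R r ∪ s ∪ w, fun x hx => le_trans (by omega) (hall x hx), ?_⟩
  rw [← hsumc _ hall, sum_union hd2, sum_union hd1, hsum, hwsum]
  rw [mul_comm c k] at hk
  omega

end FA.DistinctSummands
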