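import Mathlib.Algebra.Order.BigOperators.Group.Finset
import Mathlib.Algebra.BigOperators.Ring.Finset
import Mathlib.Data.List.Range
import Mathlib.NumberTheory.Bertrand
import Mathlib.Tactic.NormNum.Prime

/-!
# Richert's theorem on distinct primes

Every `n > 6` is a sum of distinct primes: sums of primes `≤ q` cover `[7, 7 + L)` with `2 q ≤ L`,
and adjoining a prime `q' ≤ 2 q` (Bertrand) covers `[7, 7 + L + q')`.
-/

set_option autoImplicit false

namespace FA.DistinctSummands

open Finset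

/-- Distinct primes `≤ 13` summing to `7, 8, …, 34`. -/
def primeTable : List (List ℕ) :=
  [[7], [3,5], [2,7], [3,7], [11], [5,7], [13], [3,11], [2,13], [3,13], [2,3,5,7], [5,13],
   [3,5,11], [7,13], [3,5,13], [2,7,13], [3,7,13], [11,13], [5,7,13], [2,11,13], [3,11,13],
   [3,5,7,13], [5,11,13], [2,3,5,7,13], [7,11,13], [3,5,11,13], [2,7,11,13], [3,7,11,13]]

theorem primeTable_sum : primeTable.map List.sum = List.range' 7 28 := by decide

theorem primeTable_mem : ∀ l ∈ primeTable, l.Nodup ∧ ∀ x ∈ l, x ∈ [2, 3, 5, 7, 11, 13] := by decide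

theorem exists_prime_cover (j : ℕ) : ∃ q L, j ≤ L ∧ 13 ≤ q ∧ 2 * q ≤ L ∧ ∀ n, 7 ≤ n → n < 7 + L →
    ∃ s : Finset ℕ, (∀ p ∈ s, p.Prime ∧ p ≤ q) ∧ ∑ p ∈ s, p = n := by
  induction j with
  | zero =>
    refine ⟨13, 28, by omega, by omega, by omega, fun n h1 h2 => ?_⟩
    have hmem : n ∈ primeTable.map List.sum := by
      rw [primeTable_sum, List.mem_range'_1]
      omega
    obtain ⟨l, hl, hsum⟩ := List.mem_map.1 hmem
    obtain ⟨hnd, hmem⟩ := primeTable_mem l hl
    refine ⟨l.toFinset, fun p hp => ?_, by rw [List.sum_toFinset _ hnd]; simpa using hsum⟩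
    have hp' := hmem p (List.mem_toFinset.1 hp)
    simp only [List.mem_cons, List.not_mem_nil, or_false] at hp'
    rcases hp' with rfl | rfl | rfl | rfl | rfl | rfl <;> exact ⟨by norm_num, by norm_num⟩
  | succ j ih =>
    obtain ⟨q, L, hj, hq, hqL, hcov⟩ := ih
    obtain ⟨r, hr, hqr, hrq⟩ := Nat.exists_prime_lt_and_le_two_mul q (by omega)
    refine ⟨r, L + r, by omega, by omega, by omega, fun n h1 h2 => ?_⟩
    rcases lt_or_ge n (7 + L) with h | h
    · obtain ⟨s, hs, hsum⟩ := hcov n h1 h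
      exact ⟨s, fun p hp => ⟨(hs p hp).1, by have := (hs p hp).2; omega⟩, hsum⟩
    · obtain ⟨s, hs, hsum⟩ := hcov (n - r) (by omega) (by omega)
      have hrs : r ∉ s := fun hmem => by
        have := (hs r hmem).2
        omega
      refine ⟨insert r s, (forall_mem_insert _ _ _).2 ⟨⟨hr, le_rfl⟩, fun p hp => ?_⟩, ?_⟩
      · exact ⟨(hs p hp).1, by have := (hs p hp).2; omega⟩
      · rw [sum_insert hrs, hsum]
        omega

theorem exists_distinct_primes (n : ℕ) (hn : 6 < n) :
    ∃ s : Finset ℕ, (∀ p ∈ s, p.Prime) ∧ ∑ p ∈ s, p = n := by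
  obtain ⟨q, L, hL, -, -, hcov⟩ := exists_prime_cover n
  obtain ⟨s, hs, hsum⟩ := hcov n (by omega) (by omega)
  exact ⟨s, fun p hp => (hs p hp).1, hsum⟩

theorem not_distinct_primes_six (s : Finset ℕ) (hs : ∀ p ∈ s, p.Prime) :
    ∑ p ∈ s, p ≠ 6 := fun h => by
  have key : ∀ t ∈ ({2, 3, 5} : Finset ℕ).powerset, t.sum id ≠ 6 := by decide
  refine key s (mem_powerset.2 fun p hp => ?_) h
  have h1 : p ≤ 6 := h ▸ single_le_sum (f := fun y => y) (fun y _ => Nat.zero_le y) hp
  have h2 := hs p hp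
  interval_cases p <;> first | decide | (exfalso; revert h2; norm_num)

end FA.DistinctSummands
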