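import Mathlib.Algebra.BigOperators.Ring.Finset
import Mathlib.Algebra.Order.BigOperators.Group.Finset
import Mathlib.Data.List.Range
import Mathlib.Data.Nat.Sqrt
import Mathlib.Tactic.Ring

/-!
# Sprague's theorem on distinct squares

Every `n > 128` is a sum of distinct squares: `169` explicit sums start the induction, which takes
away the largest square leaving at least `129`. A pruned search shows that `128` is no such sum.
-/

set_option autoImplicit false

namespace FA.DistinctSummands

open Finset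

/-- Roots of distinct squares summing to `129, 130, …, 297`. -/
def squareTable : List (List ℕ) :=
  [[2,5,10], [3,11], [1,3,11], [1,3,4,5,9], [4,6,9], [2,3,11], [1,2,3,11], [6,10], [4,11],
   [1,4,11], [3,7,9], [2,6,10], [2,4,11], [5,6,9], [1,5,6,9], [12], [1,12], [5,11], [1,5,11],
   [2,12], [7,10], [1,7,10], [1,2,5,11], [4,6,10], [3,12], [1,3,12], [3,5,11], [1,3,5,11], [6,11],
   [1,6,11], [1,3,7,10], [4,12], [1,4,12], [4,5,11], [1,4,5,11], [8,10], [1,8,10], [3,6,11],
   [1,3,6,11], [2,8,10], [13], [1,13], [1,7,11], [1,3,4,5,11], [2,13], [1,2,13], [1,2,7,11],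
   [1,3,6,7,9], [2,3,8,10], [3,13], [1,3,13], [6,12], [9,10], [1,9,10], [1,2,3,13], [2,6,12],
   [4,13], [1,4,13], [1,4,7,11], [1,2,3,5,7,10], [2,4,13], [3,9,10], [1,3,9,10], [1,3,5,6,11],
   [7,12], [5,13], [1,5,13], [14], [1,14], [2,5,13], [1,2,5,13], [2,14], [1,2,14], [9,11],
   [1,9,11], [1,3,5,13], [3,14], [1,3,14], [1,2,9,11], [8,12], [1,8,12], [4,5,13], [3,9,11],
   [4,14], [1,4,14], [3,6,13], [1,3,6,13], [2,4,14], [3,8,12], [7,13], [1,7,13], [1,3,4,5,13],
   [5,14], [1,5,14], [1,2,7,13], [4,8,12], [15], [1,15], [3,7,13], [1,3,7,13], [2,15], [1,2,15],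
   [1,3,5,14], [6,14], [8,13], [3,15], [1,3,15], [2,6,14], [2,8,13], [2,3,15], [1,2,3,15],
   [1,3,5,6,13], [4,15], [1,4,15], [5,7,13], [10,12], [7,14], [1,7,14], [1,5,10,11], [2,10,12],
   [2,7,14], [5,15], [1,5,15], [1,7,9,11], [3,10,12], [2,5,15], [1,2,5,15], [16], [1,16],
   [5,8,13], [3,5,15], [2,16], [6,15], [1,6,15], [2,3,5,15], [2,8,14], [3,16], [1,3,16],
   [1,4,5,15], [1,3,5,8,13], [10,13], [1,10,13], [1,3,6,15], [4,16], [1,4,16], [7,15], [1,7,15],
   [2,4,16], [9,14], [1,9,14], [1,2,7,15], [6,10,12], [5,16], [1,5,16], [3,7,15], [1,3,7,15],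
   [2,5,16], [3,9,14], [1,3,9,14], [1,2,3,7,15], [17], [1,17], [1,11,13], [6,16], [2,17],
   [1,2,17], [1,2,11,13], [10,14], [1,10,14]]

theorem squareTable_sum :
    squareTable.map (fun l => (l.map fun x => x * x).sum) = List.range' 129 169 := by
  decide +kernel

theorem squareTable_nodup : ∀ l ∈ squareTable, l.Nodup ∧ 0 ∉ l := by decide +kernel

theorem exists_distinct_squares (n : ℕ) (hn : 128 < n) :
    ∃ s : Finset ℕ, (∀ x ∈ s, 0 < x) ∧ ∑ x ∈ s, x ^ 2 = n := by
  induction n using Nat.strong_induction_on with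
  | _ n ih =>
    rcases lt_or_ge n 298 with h | h
    · have hmem : n ∈ squareTable.map (fun l => (l.map fun x => x * x).sum) := by
        rw [squareTable_sum, List.mem_range'_1]
        omega
      obtain ⟨l, hl, hsum⟩ := List.mem_map.1 hmem
      obtain ⟨hnd, h0⟩ := squareTable_nodup l hl
      refine ⟨l.toFinset, fun x hx => Nat.pos_of_ne_zero fun h' => h0 ?_, ?_⟩
      · rwa [h', List.mem_toFinset] at hx
      · rw [List.sum_toFinset _ hnd, ← hsum]
        simp only [sq]
    obtain ⟨x, hx⟩ : ∃ x, x = Nat.sqrt (n - 129) := ⟨_, rfl⟩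
    have h1 : x * x ≤ n - 129 := hx ▸ Nat.sqrt_le _
    have h2 : n - 129 < (x + 1) * (x + 1) := hx ▸ Nat.lt_succ_sqrt _
    have h13 : 13 ≤ x := by
      by_contra hlt
      have : (x + 1) * (x + 1) ≤ 13 * 13 := Nat.mul_le_mul (by omega) (by omega)
      omega
    have h3 : 13 * x ≤ x * x := Nat.mul_le_mul_right x h13
    have h4 : (x + 1) * (x + 1) = x * x + 2 * x + 1 := by ring
    obtain ⟨s, hs, hsum⟩ := ih (n - x * x) (by omega) (by omega)
    have hxs : x ∉ s := fun hmem => by
      have := single_le_sum (f := fun y => y ^ 2) (fun y _ => Nat.zero_le _) hmem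
      simp only [sq] at this hsum
      omega
    refine ⟨insert x s, (forall_mem_insert _ _ _).2 ⟨by omega, hs⟩, ?_⟩
    rw [sum_insert hxs, hsum, sq]
    omega

/-- Whether `n` is a sum of squares of distinct elements of `[1, k]`. -/
def reachSquares : ℕ → ℕ → Bool
  | 0, n => n == 0
  | k + 1, n => reachSquares k n || ((k + 1) * (k + 1) ≤ n &&
      reachSquares k (n - (k + 1) * (k + 1)))

theorem reachSquares_complete : ∀ (k n : ℕ) (s : Finset ℕ), (∀ x ∈ s, 0 < x ∧ x ≤ k) →
    ∑ x ∈ s, x * x = n → reachSquares k n = true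
  | 0, n, s, hs, hsum => by
    have : s = ∅ := eq_empty_of_forall_notMem fun x hx => by
      have := hs x hx
      omega
    subst this
    simp [reachSquares, ← hsum]
  | k + 1, n, s, hs, hsum => by
    by_cases hk : k + 1 ∈ s
    · have hsplit := add_sum_erase s (fun x => x * x) hk
      have := reachSquares_complete k (n - (k + 1) * (k + 1)) (s.erase (k + 1))
        (fun x hx => by
          obtain ⟨hne, hx⟩ := mem_erase.1 hx
          have := hs x hx
          omega) (by omega)
      simp [reachSquares, this]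
      exact Or.inr (by omega)
    · have := reachSquares_complete k n s (fun x hx => by
        have := hs x hx
        have : x ≠ k + 1 := fun h => hk (h ▸ hx)
        omega) hsum
      simp [reachSquares, this]

theorem not_distinct_squares (s : Finset ℕ) : ∑ x ∈ s, x ^ 2 ≠ 128 := fun h => by
  simp only [sq] at h
  have hb : ∀ x ∈ s.erase 0, 0 < x ∧ x ≤ 11 := fun x hx => by
    obtain ⟨hne, hx⟩ := mem_erase.1 hx
    have h1 := single_le_sum (f := fun y => y * y) (fun y _ => Nat.zero_le _) hx
    refine ⟨Nat.pos_of_ne_zero hne, ?_⟩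
    by_contra hlt
    have : 12 * 12 ≤ x * x := Nat.mul_le_mul (by omega) (by omega)
    omega
  have h2 : ∑ x ∈ s.erase 0, x * x = 128 := by
    rw [sum_erase (f := fun x => x * x) s (by simp), h]
  exact absurd (reachSquares_complete 11 128 _ hb h2) (by decide)

end FA.DistinctSummands
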